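import Fermat.Agent.CFT.Coh.Basic
import Fermat.Agent.CFT.Density.Places
import Fermat.Prelude.Def_GroupCohomology_ContinuousUnramified

/-!
# Levels of the absolute Galois group of `ℚ`

`galLevels T` consists of the fixing groups of the finite Galois extensions unramified outside
`T`.  Cochains constant on such a level are the level-constant cochains of the frozen definitions.
-/

set_option autoImplicit false

noncomputable section

open scoped Pointwise

namespace Fermat.CFT

local notation "ℚbar" => AlgebraicClosure ℚ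
local notation "Γℚ" => (AlgebraicClosure ℚ ≃ₐ[ℚ] AlgebraicClosure ℚ)

/-- Inertia at every place over a prime outside `T` fixes `F`. -/
def UnramOutside (T : Set Nat.Primes) (F : IntermediateField ℚ ℚbar) : Prop :=
  ∀ q : Nat.Primes, q ∉ T → ∀ A : ValuationSubring ℚbar, A.LiesOverPrime (q : ℕ) →
    A.inertiaSubgroupIn ℚ ≤ F.fixingSubgroup

/-- Every field is unramified outside the set of all primes. -/
lemma unramOutside_univ (F : IntermediateField ℚ ℚbar) : UnramOutside Set.univ F :=
  fun q hq => absurd (Set.mem_univ q) hq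

/-- Enlarging `T` preserves being unramified outside it. -/
lemma UnramOutside.mono {T T' : Set Nat.Primes} (h : T ⊆ T') {F : IntermediateField ℚ ℚbar}
    (hF : UnramOutside T F) : UnramOutside T' F :=
  fun q hq => hF q fun hq' => hq (h hq')

/-- A compositum of fields unramified outside `T` is unramified outside `T`. -/
lemma UnramOutside.sup {T : Set Nat.Primes} {F F' : IntermediateField ℚ ℚbar}
    (hF : UnramOutside T F) (hF' : UnramOutside T F') : UnramOutside T (F ⊔ F') := by
  intro q hq A hA σ hσ
  rw [IntermediateField.fixingSubgroup_sup]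
  exact ⟨hF q hq A hA hσ, hF' q hq A hA hσ⟩

/-- The fixing group of a normal field is normal. -/
instance fixingSubgroup_normal_qbar (F : IntermediateField ℚ ℚbar) [Normal ℚ F] :
    F.fixingSubgroup.Normal :=
  @IsGalois.fixingSubgroup_normal_of_isGalois _ _ _ _ _ F inferInstance (⟨⟩ : IsGalois ℚ F)

/-- The fixing group of a finite extension has finite index. -/
lemma fixingSubgroup_finiteIndex (F : IntermediateField ℚ ℚbar) [FiniteDimensional ℚ F] :
    F.fixingSubgroup.FiniteIndex :=
  ⟨by rw [← IntermediateField.finrank_eq_fixingSubgroup_index]; exact Module.finrank_pos.ne'⟩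

/-- The normal closure of a field unramified outside `T` is unramified outside `T`. -/
lemma UnramOutside.normalClosure {T : Set Nat.Primes} {F : IntermediateField ℚ ℚbar}
    (hF : UnramOutside T F) : UnramOutside T (IntermediateField.normalClosure ℚ F ℚbar) := by
  intro q hq A hA σ hσ
  rw [show IntermediateField.normalClosure ℚ F ℚbar = _ from
    IntermediateField.normalClosure_def'' F,
    IntermediateField.mem_fixingSubgroup_iff]
  intro x hx
  have hle : (⨆ f : ℚbar ≃ₐ[ℚ] ℚbar, F.map (f : ℚbar →ₐ[ℚ] ℚbar)) ≤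
      IntermediateField.fixedField (Subgroup.zpowers σ) := by
    refine iSup_le fun f => ?_
    rintro _ ⟨y, hy, rfl⟩ ⟨g, hg⟩
    obtain ⟨k, rfl⟩ := hg
    change (σ ^ k) (f y) = f y
    have hconj : f⁻¹ * σ * f⁻¹⁻¹ ∈ F.fixingSubgroup :=
      hF q hq _ (liesOverPrime_smul f⁻¹ hA) (mem_inertiaSubgroupIn_smul q.2 hA hσ f⁻¹)
    have hk := (IntermediateField.mem_fixingSubgroup_iff F _).mp (zpow_mem hconj k) y hy
    rw [← MulAut.conj_apply, ← map_zpow, MulAut.conj_apply, inv_inv, AlgEquiv.mul_apply,
      AlgEquiv.mul_apply] at hk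
    simpa using congrArg f hk
  exact hle hx ⟨σ, Subgroup.mem_zpowers σ⟩

/-- The levels: finite Galois extensions unramified outside `T`. -/
def galLevels (T : Set Nat.Primes) : Coh.Levels Γℚ where
  IsLevel N := ∃ F : IntermediateField ℚ ℚbar,
    FiniteDimensional ℚ F ∧ Normal ℚ F ∧ UnramOutside T F ∧ N = F.fixingSubgroup
  exists_level := ⟨_, ⊥, inferInstance,
    IntermediateField.normal_iff_forall_map_le'.mpr fun _ => by simp, fun q _ A _ σ _ => by
    rw [IntermediateField.fixingSubgroup_bot]; exact Subgroup.mem_top σ, rfl⟩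
  normal := by
    rintro _ ⟨F, _, _, -, rfl⟩
    exact fixingSubgroup_normal_qbar F
  finiteIndex := by
    rintro _ ⟨F, _, -, -, rfl⟩
    exact fixingSubgroup_finiteIndex F
  exists_le := by
    rintro _ _ ⟨F, _, hn, hF, rfl⟩ ⟨F', _, hn', hF', rfl⟩
    exact ⟨_, ⟨F ⊔ F', inferInstance, @IntermediateField.normal_sup _ _ _ _ _ F F' hn hn',
        hF.sup hF', rfl⟩,
      IntermediateField.fixingSubgroup_le le_sup_left,
      IntermediateField.fixingSubgroup_le le_sup_right⟩

/-- Levels unramified outside `T` are levels unramified outside a larger set. -/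
lemma galLevels_mono {T T' : Set Nat.Primes} (h : T ⊆ T') :
    Coh.IsLevelsHom (galLevels T) (galLevels T') (MonoidHom.id Γℚ) := by
  rintro _ ⟨F, hfd, hn, hF, rfl⟩
  exact ⟨_, ⟨F, hfd, hn, hF.mono h, rfl⟩, fun g hg => hg⟩

/-- The fixing group of a finite extension unramified outside `T` contains a level. -/
lemma exists_galLevel_le {T : Set Nat.Primes} (F : IntermediateField ℚ ℚbar)
    [FiniteDimensional ℚ F] (hF : UnramOutside T F) :
    ∃ N, (galLevels T).IsLevel N ∧ N ≤ F.fixingSubgroup :=
  ⟨_, ⟨_, inferInstance, normalClosure.normal ℚ F ℚbar, hF.normalClosure, rfl⟩,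
    IntermediateField.fixingSubgroup_le F.le_normalClosure⟩

/-- The fixing group of a finite extension contains a level. -/
lemma exists_level_univ_le (F : IntermediateField ℚ ℚbar) [FiniteDimensional ℚ F] :
    ∃ N, (galLevels Set.univ).IsLevel N ∧ N ≤ F.fixingSubgroup :=
  exists_galLevel_le F (unramOutside_univ F)

/-- Finitely many algebraic numbers lie in a finite Galois extension. -/
lemma exists_normal_field {s : Set ℚbar} (hs : s.Finite) :
    ∃ E : IntermediateField ℚ ℚbar, FiniteDimensional ℚ E ∧ Normal ℚ E ∧ s ⊆ E := by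
  have := hs.to_subtype
  have : FiniteDimensional ℚ (IntermediateField.adjoin ℚ s) :=
    IntermediateField.finiteDimensional_adjoin fun x _ => Algebra.IsIntegral.isIntegral x
  refine ⟨IntermediateField.normalClosure ℚ (IntermediateField.adjoin ℚ s) ℚbar, inferInstance,
    normalClosure.normal ℚ _ ℚbar, fun x hx => ?_⟩
  exact IntermediateField.le_normalClosure _ (IntermediateField.subset_adjoin ℚ s hx)

/-- Finitely many algebraic numbers are fixed by one level. -/
lemma exists_level_fix {s : Set ℚbar} (hs : s.Finite) :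
    ∃ N, (galLevels Set.univ).IsLevel N ∧ ∀ σ ∈ N, ∀ x ∈ s, σ x = x := by
  obtain ⟨E, hE, hEn, hsE⟩ := exists_normal_field hs
  exact ⟨E.fixingSubgroup, ⟨E, hE, hEn, unramOutside_univ E, rfl⟩,
    fun σ hσ x hx => (IntermediateField.mem_fixingSubgroup_iff E σ).mp hσ x (hsE hx)⟩

/-! ### The frozen notions of level constancy -/

section Compare

variable {G : Type} [Group G] (r : G →* Γℚ) {X : Type*}

/-- The frozen level constancy in degree one, as constancy on cosets of a level. -/
lemma isLevelConstant₁_iff {f : G → X} :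
    groupCohomology.IsLevelConstant₁ r f ↔ ((galLevels Set.univ).comap r).IsLC₁ f := by
  constructor
  · rintro ⟨F, hF, h⟩
    obtain ⟨N, hN, hNF⟩ := exists_level_univ_le F
    exact ⟨_, ⟨N, hN, rfl⟩, fun g s hs => h g s (hNF hs)⟩
  · rintro ⟨_, ⟨_, ⟨F, hF, -, -, rfl⟩, rfl⟩, h⟩
    exact ⟨F, hF, fun g s hs => h g s hs⟩

variable {S : Finset Nat.Primes}

/-- The frozen `S`-level constancy in degree one, as constancy on cosets of a level. -/
lemma isLevelConstantS₁_iff {f : Γℚ → X} :
    groupCohomology.IsLevelConstantS₁ S f ↔ (galLevels (S : Set Nat.Primes)).IsLC₁ f := by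
  constructor
  · rintro ⟨F, hF, h⟩
    have := hF.1
    obtain ⟨N, hN, hNF⟩ := exists_galLevel_le (T := (S : Set Nat.Primes)) F hF.2
    exact ⟨N, hN, fun g s hs => h g s (hNF hs)⟩
  · rintro ⟨_, ⟨F, hF, -, hFT, rfl⟩, h⟩
    exact ⟨F, ⟨hF, hFT⟩, fun g s hs => h g s hs⟩

/-- The frozen `S`-level constancy in degree two, as constancy on cosets of a level. -/
lemma isLevelConstantS₂_iff {f : Γℚ × Γℚ → X} :
    groupCohomology.IsLevelConstantS₂ S f ↔
      (galLevels (S : Set Nat.Primes)).IsLC₂ fun g h => f (g, h) := by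
  constructor
  · rintro ⟨F, hF, h⟩
    have := hF.1
    obtain ⟨N, hN, hNF⟩ := exists_galLevel_le (T := (S : Set Nat.Primes)) F hF.2
    exact ⟨N, hN, fun g g' s hs t ht => h g g' s t (hNF hs) (hNF ht)⟩
  · rintro ⟨_, ⟨F, hF, -, hFT, rfl⟩, h⟩
    exact ⟨F, ⟨hF, hFT⟩, fun g g' s s' hs hs' => h g g' s hs s' hs'⟩

end Compare

end Fermat.CFT
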