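import Fermat.Agent.CFT.Galois.Kummer
import Fermat.Agent.CFT.Coh.Shapiro

/-!
# Classes in `H²(μ_p)` split by a cyclic extension of degree `p`

For a homomorphism `ψ : G → ℤ/p` with `ψ σ = 1`, the classes killed on `ker ψ` are the
cup products of `ψ` with Kummer classes, and such a cup product vanishes exactly for norms.
-/

set_option autoImplicit false

noncomputable section

open Fermat.CFT.Coh

namespace Fermat.CFT

local notation "Γℚ" => (AlgebraicClosure ℚ ≃ₐ[ℚ] AlgebraicClosure ℚ)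

variable {G : Type} [Group G] {r : G →* Γℚ} {p : ℕ} [hp : Fact p.Prime]

/-- Continuous homomorphisms to `ℤ/p`. -/
abbrev ZHom (p : ℕ) (r : G →* Γℚ) : Type :=
  ↥(Z1 (glev r) (Representation.trivial (ZMod p) G (ZMod p)))

variable {ψ : ZHom p r} {σ : G} (hσ : ψ.1 σ = 1)

include hσ

/-- Removing the power of `σ` with the same image leaves an element of the kernel. -/
lemma hpart_mem (g : G) : (σ ^ (ψ.1 g).val)⁻¹ * g ∈ homKer ψ := by
  rw [mem_homKer, triv_hom, triv_inv, triv_pow, hσ, mul_one, ZMod.natCast_zmod_val]; abel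

/-- The component in the kernel. -/
def hpart (g : G) : homKer ψ := ⟨(σ ^ (ψ.1 g).val)⁻¹ * g, hpart_mem hσ g⟩

/-- Every element is a power of `σ` times an element of the kernel. -/
lemma pow_mul_hpart (g : G) : σ ^ (ψ.1 g).val * (hpart hσ g : G) = g :=
  mul_inv_cancel_left _ _

omit hσ

section Cocycles

variable {R : Type} [CommRing R] {M : Type} [AddCommGroup M] [Module R M]
  {ρ : Representation R G M} {c : G → G → M} (hc : d₂ ρ c = 0)
  (h1 : ∀ g, ∀ h ∈ homKer ψ, c g h = 0)

include hc h1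

/-- A cocycle vanishing on `G × ker ψ` is unchanged by the kernel in the second variable. -/
lemma cocycle_mul_right (g g' : G) {h : G} (hh : h ∈ homKer ψ) : c g (g' * h) = c g g' := by
  have := congrFun (congrFun (congrFun hc g) g') h
  rw [d₂_apply, h1 _ _ hh, h1 _ _ hh, map_zero, sub_zero, zero_add, Pi.zero_apply, Pi.zero_apply,
    Pi.zero_apply, sub_eq_zero] at this
  exact this

variable (h2 : ∀ h ∈ homKer ψ, ∀ g, c h g = 0)

include h2

/-- A cocycle vanishing on the kernel on both sides is unchanged by it in the first variable. -/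
lemma cocycle_mul_left (g g' : G) {h : G} (hh : h ∈ homKer ψ) :
    c (g * h) g' = c g g' := by
  have e := congrFun (congrFun (congrFun hc g) h) g'
  rw [d₂_apply, h2 _ hh, map_zero, h1 _ _ hh, sub_zero, Pi.zero_apply, Pi.zero_apply,
    Pi.zero_apply, zero_sub, neg_add_eq_zero] at e
  rw [e, show h * g' = g' * (g'⁻¹ * h * g') by group,
    cocycle_mul_right hc h1 g g' (conj_mem_homKer hh g')]

/-- The values of such a cocycle are fixed by the kernel. -/
lemma cocycle_fixed (g g' : G) {h : G} (hh : h ∈ homKer ψ) : ρ h (c g g') = c g g' := by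
  have e := congrFun (congrFun (congrFun hc h) g) g'
  rw [d₂_apply, h2 h hh, h2 h hh, Pi.zero_apply, Pi.zero_apply, Pi.zero_apply, add_zero, sub_zero,
    sub_eq_zero, show h * g = g * (g⁻¹ * h * g) by group,
    cocycle_mul_left hc h1 h2 g g' (conj_mem_homKer hh g)] at e
  exact e

include hσ in
/-- Such a cocycle is determined by its values at powers of `σ`. -/
lemma cocycle_eq_pow (g g' : G) :
    c g g' = c (σ ^ (ψ.1 g).val) (σ ^ (ψ.1 g').val) := by
  conv_lhs => rw [← pow_mul_hpart hσ g, ← pow_mul_hpart hσ g']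
  rw [cocycle_mul_left hc h1 h2 _ _ (hpart hσ g).2, cocycle_mul_right hc h1 _ _ (hpart hσ g').2]

omit h2 in
/-- The values at powers of `σ` in terms of those with second entry `σ`. -/
lemma cocycle_pow (i j : ℕ) : c (σ ^ i) (σ ^ j) =
    ∑ k ∈ Finset.range (i + j), c (σ ^ k) σ - ∑ k ∈ Finset.range i, c (σ ^ k) σ -
      ρ (σ ^ i) (∑ k ∈ Finset.range j, c (σ ^ k) σ) := by
  induction j with
  | zero => rw [pow_zero, h1 _ _ (homKer ψ).one_mem]; simp
  | succ j ih =>
    have e := congrFun (congrFun (congrFun hc (σ ^ i)) (σ ^ j)) σ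
    rw [d₂_apply, ← pow_add, ← pow_succ, Pi.zero_apply, Pi.zero_apply, Pi.zero_apply] at e
    rw [Finset.sum_range_succ _ j, map_add, ← add_assoc, Finset.sum_range_succ _ (i + j),
      ← sub_eq_zero, ← e, ih]
    abel

/-- The partial sums grow by the full sum over a period. -/
lemma cocycle_sum_add (n : ℕ) : ∑ k ∈ Finset.range (n + p), c (σ ^ k) σ =
    ∑ k ∈ Finset.range n, c (σ ^ k) σ + ∑ k ∈ Finset.range p, c (σ ^ k) σ := by
  rw [add_comm n p, Finset.sum_range_add, add_comm]
  congr 1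
  exact Finset.sum_congr rfl fun k _ => by
    rw [add_comm p k, pow_add, cocycle_mul_left hc h1 h2 _ _ (pow_mem_homKer (z := ψ))]

include hσ in
/-- The sum over a period is fixed by the whole group. -/
lemma cocycle_sum_fixed (g : G) :
    ρ g (∑ k ∈ Finset.range p, c (σ ^ k) σ) = ∑ k ∈ Finset.range p, c (σ ^ k) σ := by
  have hH : ∀ h ∈ homKer ψ, ρ h (∑ k ∈ Finset.range p, c (σ ^ k) σ) =
      ∑ k ∈ Finset.range p, c (σ ^ k) σ := fun h hh => by
    rw [map_sum]; exact Finset.sum_congr rfl fun k _ => cocycle_fixed hc h1 h2 _ _ hh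
  have hs : ρ σ (∑ k ∈ Finset.range p, c (σ ^ k) σ) = ∑ k ∈ Finset.range p, c (σ ^ k) σ := by
    have e := cocycle_pow (σ := σ) hc h1 1 p
    rw [pow_one, h1 _ _ (pow_mem_homKer (z := ψ)), cocycle_sum_add hc h1 h2, add_sub_cancel_left,
      eq_comm, sub_eq_zero] at e
    exact e.symm
  rw [← pow_mul_hpart hσ g, map_mul, Module.End.mul_apply, hH _ (hpart hσ g).2]
  induction (ψ.1 g).val with
  | zero => simp
  | succ n ih => rw [pow_succ, map_mul, Module.End.mul_apply, hs, ih]

end Cocycles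

/-! ### The cup product with `ψ` -/

variable (ψ)

/-- Multiplication pairs `μ_p` with the trivial line into `μ_p`. -/
lemma mulPairing_cyc : IsPairing (charRep (cycHom p r)) (Representation.trivial (ZMod p) G (ZMod p))
    (charRep (cycHom p r)) (LinearMap.mul (ZMod p) (ZMod p)) := fun g a b => by
  simp [mul_assoc]

/-- `b ↦ κ_b ∪ ψ`. -/
def cycCup : H0 (unitsRep r) →+ H2 (glev r) (charRep (cycHom p r)) :=
  ((cup11 mulPairing_cyc (isSmooth_trivial _) (isSmooth_charRep (charSmooth_cycHom r))).flip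
      (cl₁ (glev r) (Representation.trivial (ZMod p) G (ZMod p)) ψ)).toAddMonoidHom.comp (kum p r)

/-- The cochain `κ_b ∪ ψ` is a cocycle. -/
lemma cycCup_cocycle_mem (b : H0 (unitsRep r)) {β : QU} (hβ : p • β = b.1) :
    (fun g g' => (rootCocycle (isRoot_of_eq (p := p) b hβ)).1 g * ψ.1 g') ∈
      Z2 (glev r) (charRep (cycHom p r)) := by
  simpa using (mulPairing_cyc (r := r)).cup11_mem (isSmooth_trivial _)
    (rootCocycle (isRoot_of_eq (p := p) b hβ)) ψ

/-- The cup product with `ψ` from any chosen root. -/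
lemma cycCup_eq (b : H0 (unitsRep r)) {β : QU} (hβ : p • β = b.1) :
    cycCup ψ b = cl₂ (glev r) (charRep (cycHom p r)) ⟨_, cycCup_cocycle_mem ψ b hβ⟩ := by
  change cup11 mulPairing_cyc (isSmooth_trivial _) (isSmooth_charRep (charSmooth_cycHom r))
    (kum p r b) (cl₁ (glev r) (Representation.trivial (ZMod p) G (ZMod p)) ψ) = _
  rw [kum_root b hβ, cup11_cl₁]
  rfl

/-- The coboundary of `g ↦ (ψ g) β`: a cup product plus a carry multiple of `b`. -/
lemma d₁_valSmul {b : H0 (unitsRep r)} {β : QU} (hβ : p • β = b.1) (g g' : G) :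
    d₁ (unitsRep r) (fun a => (ψ.1 a).val • β) g g' =
      zpw p ((rootCocycle (isRoot_of_eq (p := p) b hβ)).1 g * ψ.1 g') +
        (((ψ.1 g).val + (ψ.1 g').val) / p) • b.1 := by
  have e : (ψ.1 (g * g')).val = ((ψ.1 g).val + (ψ.1 g').val) % p := by
    rw [triv_hom, ZMod.val_add]
  have e2 : zpw p ((rootCocycle (isRoot_of_eq (p := p) b hβ)).1 g * ψ.1 g') =
      (ψ.1 g').val • d₀ (unitsRep r) β g := by
    rw [← zpw_rootCocycle (p := p) (isRoot_of_eq b hβ), ← map_nsmul, nsmul_eq_mul,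
      ZMod.natCast_zmod_val, mul_comm]
  rw [d₁_apply, e2, map_nsmul, e, d₀_apply, nsmul_sub, ← hβ, ← mul_smul]
  have e3 : (ψ.1 g).val + (ψ.1 g').val =
      ((ψ.1 g).val + (ψ.1 g').val) / p * p + ((ψ.1 g).val + (ψ.1 g').val) % p :=
    (Nat.div_add_mod' _ p).symm
  have e4 := congrArg (fun n : ℕ => n • β) e3
  simp only [add_nsmul] at e4
  rw [← eq_sub_iff_add_eq] at e4
  rw [e4]
  abel

omit hp in
/-- The cochain `g ↦ (ψ g) β` is level-constant. -/
lemma isLC₁_valSmul (β : QU) : (glev r).IsLC₁ fun a => (ψ.1 a).val • β :=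
  ψ.2.1.comp fun x => x.val • β

/-- The restriction to the kernel. -/
abbrev zres : H2 (glev r) (charRep (cycHom p r)) →ₗ[ZMod p]
    H2 (glev (r.comp (homKer ψ).subtype)) (charRep (cycHom p (r.comp (homKer ψ).subtype))) :=
  map₂ (isLevelsHom_glev r (homKer ψ).subtype) (cycHom_equivariant r (homKer ψ).subtype)

include hσ in
/-- A cocycle which is a coboundary on `ker ψ` is cohomologous to one vanishing on `G × ker ψ`. -/
private lemma exists_normalize (z : Z2 (glev r) (charRep (cycHom p r))) {f : homKer ψ → ZMod p}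
    (hf1 : (glev (r.comp (homKer ψ).subtype)).IsLC₁ f)
    (hfd : ∀ a b : homKer ψ,
      (charRep (cycHom p r)) a (f b) - f (a * b) + f a = z.1 a b) :
    ∃ F : G → ZMod p, (glev r).IsLC₁ F ∧
      ∀ g, ∀ h ∈ homKer ψ, (z.1 - d₁ (charRep (cycHom p r)) F) g h = 0 := by
  classical
  have hz : ∀ g h j, (charRep (cycHom p r)) g (z.1 h j) - z.1 (g * h) j +
      z.1 g (h * j) - z.1 g h = 0 := fun g h j =>
    congrFun (congrFun (congrFun z.2.2 g) h) j
  -- extend `f`
  set i : G → ℕ := fun g => (ψ.1 g).val with hi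
  set e₀ : ℕ → ZMod p := fun n => if n = 0 then z.1 1 1 else 0 with he₀
  set F : G → ZMod p := fun g =>
    -z.1 (σ ^ i g) (hpart hσ g) + (charRep (cycHom p r)) (σ ^ i g) (f (hpart hσ g)) +
      e₀ (i g) with hF
  have hF1 : (glev r).IsLC₁ F := by
    obtain ⟨_, ⟨N₁, hN₁, rfl⟩, hzN⟩ := z.2.1
    obtain ⟨_, ⟨N₂, hN₂, rfl⟩, hfN⟩ := hf1
    obtain ⟨_, ⟨N₃, hN₃, rfl⟩, hψN⟩ := containsLevel_homKer ψ
    obtain ⟨N₄, hN₄, a1, a2⟩ := (galLevels Set.univ).exists_le N₁ N₂ hN₁ hN₂
    obtain ⟨N, hN, b1, b2⟩ := (galLevels Set.univ).exists_le N₄ N₃ hN₄ hN₃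
    refine ⟨_, ⟨N, hN, rfl⟩, fun g s hs => ?_⟩
    have hsH : s ∈ homKer ψ := hψN (show s ∈ N₃.comap r from b2 hs)
    have hi' : i (g * s) = i g := by simp only [hi, triv_hom, mem_homKer.mp hsH, add_zero]
    have hp' : hpart hσ (g * s) = hpart hσ g * ⟨s, hsH⟩ := Subtype.ext (by
      change (σ ^ i (g * s))⁻¹ * (g * s) = (σ ^ i g)⁻¹ * g * s
      rw [hi', mul_assoc])
    simp only [hF, hi', hp', Subgroup.coe_mul,
      hfN _ ⟨s, hsH⟩ (show ((r.comp (homKer ψ).subtype) ⟨s, hsH⟩) ∈ N₂ from a2 (b1 hs))]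
    have := hzN (σ ^ i g) (hpart hσ g) 1 (Subgroup.one_mem _) s (a1 (b1 hs))
    rw [mul_one] at this
    rw [this]
  have hFH : ∀ h : homKer ψ, F h = f h := fun h => by
    have h0 : i h = 0 := by simp only [hi, mem_homKer.mp h.2, ZMod.val_zero]
    have hh : hpart hσ (h : G) = h := Subtype.ext (by
      change (σ ^ i h)⁻¹ * h = h
      rw [h0, pow_zero, inv_one, one_mul])
    have h11 := hz 1 1 h
    simp only [map_one, Module.End.one_apply, one_mul] at h11
    simp only [hF, h0, pow_zero, map_one, Module.End.one_apply, hh, he₀, if_true]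
    linear_combination -h11
  refine ⟨F, hF1, fun g h hh => ?_⟩
  have hi' : i (g * h) = i g := by simp only [hi, triv_hom, mem_homKer.mp hh, add_zero]
  have hp' : hpart hσ (g * h) = hpart hσ g * ⟨h, hh⟩ := Subtype.ext (by
    change (σ ^ i (g * h))⁻¹ * (g * h) = (σ ^ i g)⁻¹ * g * h
    rw [hi', mul_assoc])
  have e1 := hz (σ ^ i g) (hpart hσ g) h
  rw [pow_mul_hpart hσ g] at e1
  have e2 := hfd (hpart hσ g) ⟨h, hh⟩
  have e3 : (charRep (cycHom p r)) g (F h) = (charRep (cycHom p r)) (σ ^ i g)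
      ((charRep (cycHom p r)) (hpart hσ g : G) (f ⟨h, hh⟩)) := by
    rw [← Module.End.mul_apply, ← map_mul, pow_mul_hpart hσ g, ← hFH ⟨h, hh⟩]
  change z.1 g h - ((charRep (cycHom p r)) g (F h) - F (g * h) + F g) = 0
  rw [e3]
  simp only [hF, hi', hp', Subgroup.coe_mul]
  have e4 := congrArg ((charRep (cycHom p r)) (σ ^ i g)) e2
  rw [map_add, map_sub] at e4
  linear_combination -e1 - e4

/-- The values at the powers of `σ` of a cocycle vanishing on `G × ker ψ` split on `ker ψ`. -/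
private lemma exists_splitting (σ : G) {z' : G → G → ZMod p} (hz'L : (glev r).IsLC₂ z')
    (hz'2 : d₂ (charRep (cycHom p r)) z' = 0) (hz'1 : ∀ g, ∀ h ∈ homKer ψ, z' g h = 0) :
    ∃ θ : ℕ → QU, θ 0 = 0 ∧
      ∀ n, ∀ h : homKer ψ, unitsRep r h (θ n) - θ n = zpw p (z' h (σ ^ n)) := by
  classical
  have hφ : ∀ s : G, (fun h : homKer ψ => zpw p (z' h s)) ∈
      Z1 (glev (r.comp (homKer ψ).subtype)) (unitsRep (r.comp (homKer ψ).subtype)) := fun s => by
    refine ⟨?_, funext₂ fun a b => ?_⟩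
    · obtain ⟨N₁, hN₁, hN⟩ := hz'L
      obtain ⟨N₂, hN₂, hle⟩ := isLevelsHom_glev r (homKer ψ).subtype N₁ hN₁
      refine ⟨N₂, hN₂, fun h t ht => congrArg _ ?_⟩
      have := hN h s t (hle ht) 1 (Subgroup.one_mem _)
      rwa [mul_one] at this
    · have e := congrFun (congrFun (congrFun hz'2 a) b) s
      rw [d₂_apply, hz'1 a b b.2, sub_zero, Pi.zero_apply, Pi.zero_apply, Pi.zero_apply,
        show (b : G) * s = s * (s⁻¹ * b * s) by group,
        cocycle_mul_right hz'2 hz'1 _ _ (conj_mem_homKer b.2 s)] at e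
      have e' := congrArg (zpw p) e
      rw [map_add, map_sub, map_zero, ← unitsRep_zpw] at e'
      exact e'
  choose θ₀ hθ₀ using fun s => hilbert90 _ (hφ s)
  set θ : ℕ → QU := fun n => if n = 0 then 0 else θ₀ (σ ^ n) with hθ
  have hθ' : ∀ n, ∀ h : homKer ψ, unitsRep r h (θ n) - θ n = zpw p (z' h (σ ^ n)) := fun n h => by
    simp only [hθ]
    split_ifs with h0
    · rw [h0, pow_zero, hz'1 _ _ (homKer ψ).one_mem]; simp
    · exact congrFun (hθ₀ (σ ^ n)) h
  exact ⟨θ, if_pos rfl, hθ'⟩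

include hσ in
/-- Removing the splitting leaves a cocycle vanishing on `ker ψ` on either side. -/
private lemma units_cocycle_props {z' : G → G → ZMod p} (hz'2 : d₂ (charRep (cycHom p r)) z' = 0)
    (hz'1 : ∀ g, ∀ h ∈ homKer ψ, z' g h = 0) {θ : ℕ → QU} (hθ0 : θ 0 = 0)
    (hθ' : ∀ n, ∀ h : homKer ψ, unitsRep r h (θ n) - θ n = zpw p (z' h (σ ^ n))) {C : G → G → QU}
    (hC : C = (fun g g' => zpw p (z' g g')) - d₁ (unitsRep r) fun g => θ (ψ.1 g).val) :
    d₂ (unitsRep r) C = 0 ∧ (∀ g, ∀ h ∈ homKer ψ, C g h = 0) ∧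
      ∀ h ∈ homKer ψ, ∀ g, C h g = 0 := by
  subst hC
  refine ⟨?_, fun g h hh => ?_, fun h hh g => ?_⟩
  · rw [map_sub, d₂_d₁, sub_zero]
    funext a b j
    rw [← zpw_d₂, hz'2]; simp
  · have h0 : (ψ.1 h).val = 0 := by rw [mem_homKer.mp hh, ZMod.val_zero]
    have hi' : (ψ.1 (g * h)).val = (ψ.1 g).val := by rw [triv_hom, mem_homKer.mp hh, add_zero]
    simp [hz'1 g h hh, h0, hi', hθ0]
  · have h0 : (ψ.1 h).val = 0 := by rw [mem_homKer.mp hh, ZMod.val_zero]
    have hi' : (ψ.1 (h * g)).val = (ψ.1 g).val := by rw [triv_hom, mem_homKer.mp hh, zero_add]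
    have e : z' h g = z' h (σ ^ (ψ.1 g).val) := by
      conv_lhs => rw [← pow_mul_hpart hσ g]
      exact cocycle_mul_right hz'2 hz'1 _ _ (hpart hσ g).2
    simp only [Pi.sub_apply, d₁_apply, h0, hi', e, ← hθ' (ψ.1 g).val ⟨h, hh⟩, hθ0]
    abel

/-- The partial sums grow by the full sum in each period. -/
private lemma cocycle_sum_div {C : G → G → QU} (hC2 : d₂ (unitsRep r) C = 0)
    (hC1 : ∀ g, ∀ h ∈ homKer ψ, C g h = 0) (hC1' : ∀ h ∈ homKer ψ, ∀ g, C h g = 0) (n : ℕ) :
    ∑ k ∈ Finset.range n, C (σ ^ k) σ = ∑ k ∈ Finset.range (n % p), C (σ ^ k) σ +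
      (n / p) • ∑ k ∈ Finset.range p, C (σ ^ k) σ := by
  conv_lhs => rw [← Nat.mod_add_div n p]
  generalize n % p = m
  induction n / p with
  | zero => rw [mul_zero, add_zero, zero_smul, add_zero]
  | succ q ih =>
    rw [mul_add, mul_one, ← add_assoc, cocycle_sum_add hC2 hC1 hC1', ih, succ_nsmul]
    abel

include hσ in
/-- A class killed on `ker ψ` is a cup product with `ψ`. -/
theorem exists_cycCup_eq {c : H2 (glev r) (charRep (cycHom p r))} (hc : zres ψ c = 0) :
    ∃ b, cycCup ψ b = c := by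
  classical
  obtain ⟨z, rfl⟩ := cl₂_surjective c
  obtain ⟨f, hf1, hf⟩ := cl₂_eq_zero.mp hc
  have hfd : ∀ a b : homKer ψ, (charRep (cycHom p r)) a (f b) - f (a * b) + f a =
      z.1 a b := fun a b => by
    have := congrFun (congrFun hf a) b
    simpa using this
  set i : G → ℕ := fun g => (ψ.1 g).val with hi
  -- normalise `z` on `ker ψ`, then split it in the units: `C` is inflated from the quotient
  obtain ⟨F, hF1, hz'1⟩ := exists_normalize ψ hσ z hf1 hfd
  set z' : G → G → ZMod p := z.1 - d₁ (charRep (cycHom p r)) F with hz'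
  have hz'2 : d₂ (charRep (cycHom p r)) z' = 0 := by rw [hz', map_sub, d₂_d₁, z.2.2, sub_zero]
  obtain ⟨θ, hθ0, hθ'⟩ := exists_splitting ψ σ
    (z.2.1.map₂ (isLC₂_d₁ (isSmooth_charRep (charSmooth_cycHom r)) hF1) fun x y => x - y :
      (glev r).IsLC₂ z') hz'2 hz'1
  set u : G → QU := fun g => θ (i g) with hu
  set C : G → G → QU := fun g g' => zpw p (z' g g') - d₁ (unitsRep r) u g g' with hC
  obtain ⟨hC2, hC1, hC1'⟩ := units_cocycle_props ψ hσ hz'2 hz'1 hθ0 hθ' (C := C) rfl
  -- such a cocycle is determined by the fixed element `b = E p`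
  set E : ℕ → QU := fun n => ∑ k ∈ Finset.range n, C (σ ^ k) σ with hE
  set b : H0 (unitsRep r) :=
    ⟨E p, mem_ker_d₀.mpr fun g => cocycle_sum_fixed hσ hC2 hC1 hC1' g⟩ with hb
  obtain ⟨β, hβ⟩ := exists_root p b.1
  have hEfix : ∀ n, ∀ h ∈ homKer ψ, unitsRep r h (E n) = E n := fun n h hh => by
    simp only [hE, map_sum]
    exact Finset.sum_congr rfl fun k _ => cocycle_fixed hC2 hC1 hC1' _ _ hh
  set w : G → QU := (fun g => (ψ.1 g).val • β) + (u - fun g => E (i g)) with hw
  have hEdiv : ∀ n, E n = E (n % p) + (n / p) • b.1 := cocycle_sum_div ψ hC2 hC1 hC1'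
  obtain ⟨e, he1, he⟩ := exists_d₁_of_units (p := p) (r := r)
    (z := fun g g' => z' g g' + (rootCocycle (isRoot_of_eq (p := p) b hβ)).1 g * ψ.1 g')
    (w := w) ((isLC₁_valSmul ψ β).map₂ (ψ.2.1.comp fun x => θ x.val - E x.val) (· + ·))
    fun g g' => by
      have hCgg : C g g' = E (i g + i g') - E (i g) - unitsRep r g (E (i g')) := by
        rw [cocycle_eq_pow hσ hC2 hC1 hC1', cocycle_pow hC2 hC1]
        congr 1
        conv_rhs => rw [← pow_mul_hpart hσ g, map_mul, Module.End.mul_apply,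
          hEfix _ _ (hpart hσ g).2]
      have hmod : i (g * g') = (i g + i g') % p := by simp only [hi, triv_hom, ZMod.val_add]
      have hsplit : zpw p (z' g g') = C g g' + d₁ (unitsRep r) u g g' := by simp [hC]
      rw [map_add (zpw p), hsplit, hCgg, hEdiv (i g + i g'), ← hmod, hw, map_add, map_sub,
        Pi.add_apply, Pi.add_apply, Pi.sub_apply, Pi.sub_apply, d₁_valSmul ψ hβ,
        d₁_apply (unitsRep r) (fun g => E (i g))]
      simp only [hi]
      abel
  refine ⟨-b, ?_⟩
  rw [map_neg, cycCup_eq ψ b hβ, ← map_neg]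
  refine (cl₂_eq_iff.mpr ⟨e + F, he1.map₂ hF1 (· + ·), ?_⟩).symm
  rw [map_add, he]
  funext g g'
  simp only [Pi.add_apply, Pi.sub_apply, Submodule.coe_neg, Pi.neg_apply, hz']
  abel

include hσ in
/-- The cup product with `ψ` is trivial exactly on norms from `ker ψ`. -/
theorem cycCup_eq_zero_iff (b : H0 (unitsRep r)) :
    cycCup ψ b = 0 ↔ ∃ y : QU, (∀ h ∈ homKer ψ, unitsRep r h y = y) ∧
      ∑ k ∈ Finset.range p, unitsRep r (σ ^ k) y = b.1 := by
  obtain ⟨β, hβ⟩ := exists_root p b.1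
  set i : G → ℕ := fun g => (ψ.1 g).val with hi
  have hp1 : 1 < p := hp.out.one_lt
  have hipow : ∀ n, n < p → i (σ ^ n) = n := fun n hn => by
    simp only [hi, triv_pow, hσ, mul_one, ZMod.val_natCast, Nat.mod_eq_of_lt hn]
  rw [cycCup_eq ψ b hβ, cl₂_eq_zero]
  constructor
  · rintro ⟨e, he1, he⟩
    set w : G → QU := (fun g => (ψ.1 g).val • β) - fun g => zpw p (e g) with hw
    have hdw : ∀ g g', d₁ (unitsRep r) w g g' = ((i g + i g') / p) • b.1 := fun g g' => by
      rw [hw, map_sub, Pi.sub_apply, Pi.sub_apply, d₁_valSmul ψ hβ, ← zpw_d₁,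
        congrFun (congrFun he g) g']
      exact add_sub_cancel_left _ _
    have hwLC : (glev r).IsLC₁ w := (isLC₁_valSmul ψ β).map₂ (he1.comp (zpw p)) (· - ·)
    -- by Hilbert 90, change `w` to vanish on the kernel; then `w σ` is the required `y`
    obtain ⟨η, hη⟩ := hilbert90 (r.comp (homKer ψ).subtype) (f := fun h => w h)
      ⟨(isLevelsHom_glev r (homKer ψ).subtype).isLC₁ hwLC, funext₂ fun a a' => by
        refine (hdw a a').trans ?_
        simp only [hi, mem_homKer.mp a.2, mem_homKer.mp a'.2, ZMod.val_zero, add_zero, Nat.zero_div,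
          zero_smul]
        rfl⟩
    set w' : G → QU := w - d₀ (unitsRep r) η with hw'
    have hdw' : ∀ g g', d₁ (unitsRep r) w' g g' = ((i g + i g') / p) • b.1 := fun g g' => by
      rw [hw', map_sub, d₁_d₀, sub_zero, hdw]
    have hH0 : ∀ h ∈ homKer ψ, w' h = 0 := fun h hh => by
      have := congrFun hη ⟨h, hh⟩
      rw [hw', Pi.sub_apply, sub_eq_zero]
      exact this.symm
    have hlt : ∀ g, i g / p = 0 := fun g => Nat.div_eq_of_lt (ZMod.val_lt _)
    have hR : ∀ g, ∀ h ∈ homKer ψ, w' (g * h) = w' g := fun g h hh => by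
      have := hdw' g h
      rw [d₁_apply, hH0 h hh, map_zero, zero_sub, show i h = 0 by simp [hi, mem_homKer.mp hh],
        add_zero, hlt, zero_smul, neg_add_eq_zero] at this
      exact this
    refine ⟨w' σ, fun h hh => ?_, ?_⟩
    · have := hdw' h σ
      rw [d₁_apply, hH0 h hh, add_zero, show i h = 0 by simp [hi, mem_homKer.mp hh], zero_add,
        hlt, zero_smul, sub_eq_zero, show h * σ = σ * (σ⁻¹ * h * σ) by group,
        hR _ _ (conj_mem_homKer hh σ)] at this
      exact this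
    · have hsum : ∀ n, n < p → w' (σ ^ n) = ∑ k ∈ Finset.range n, unitsRep r (σ ^ k) (w' σ) := by
        intro n
        induction n with
        | zero => intro _; rw [pow_zero, hH0 1 (homKer ψ).one_mem, Finset.sum_range_zero]
        | succ n ih =>
          intro hn
          have := hdw' (σ ^ n) σ
          rw [d₁_apply, ← pow_succ, hipow n (by omega),
            show i σ = 1 by simpa using hipow 1 hp1, Nat.div_eq_of_lt hn, zero_smul,
            sub_add_eq_add_sub, sub_eq_zero] at this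
          rw [Finset.sum_range_succ, ← this, ih (by omega), add_comm]
      have := hdw' (σ ^ (p - 1)) σ
      rw [d₁_apply, ← pow_succ, Nat.sub_add_cancel hp.out.one_le, hH0 _ (pow_mem_homKer (z := ψ)),
        hsum _ (Nat.sub_lt hp.out.pos one_pos), sub_zero, hipow _ (Nat.sub_lt hp.out.pos one_pos),
        show i σ = 1 by simpa using hipow 1 hp1, Nat.sub_add_cancel hp.out.one_le,
        Nat.div_self hp.out.pos, one_smul] at this
      conv_lhs => rw [← Nat.sub_add_cancel hp.out.one_le, Finset.sum_range_succ]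
      rw [add_comm]
      exact this
  · rintro ⟨y, hy, hyb⟩
    -- conversely the partial norms of `y` give the cochain
    set E : ℕ → QU := fun n => ∑ k ∈ Finset.range n, unitsRep r (σ ^ k) y with hE
    have hadd : ∀ m n, E (m + n) = E m + unitsRep r (σ ^ m) (E n) := fun m n => by
      simp only [hE, Finset.sum_range_add, map_sum]
      exact congrArg _ (Finset.sum_congr rfl fun k _ => by
        rw [pow_add, map_mul, Module.End.mul_apply])
    have hEfix : ∀ n, ∀ h ∈ homKer ψ, unitsRep r h (E n) = E n := fun n h hh => by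
      simp only [hE, map_sum]
      refine Finset.sum_congr rfl fun k _ => ?_
      rw [← Module.End.mul_apply, ← map_mul,
        show h * σ ^ k = σ ^ k * ((σ ^ k)⁻¹ * h * σ ^ k) by group,
        map_mul, Module.End.mul_apply, hy _ (conj_mem_homKer hh _)]
    have hdiv : ∀ n, E n = E (n % p) + (n / p) • b.1 := fun n => by
      conv_lhs => rw [← Nat.mod_add_div n p]
      generalize n % p = m
      induction n / p with
      | zero => rw [mul_zero, add_zero, zero_smul, add_zero]
      | succ q ih =>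
        rw [mul_add, mul_one, ← add_assoc, hadd, show E p = b.1 from hyb, H0_fixed, ih, succ_nsmul]
        abel
    refine exists_d₁_of_units (w := (fun g => (ψ.1 g).val • β) - fun g => E (i g))
      ((isLC₁_valSmul ψ β).map₂ (ψ.2.1.comp fun x => E x.val) (· - ·)) fun g g' => ?_
    have hmod : i (g * g') = (i g + i g') % p := by simp only [hi, triv_hom, ZMod.val_add]
    have hg : unitsRep r g (E (i g')) = E (i g + i g') - E (i g) := by
      rw [hadd, add_sub_cancel_left]
      conv_lhs => rw [← pow_mul_hpart hσ g, map_mul, Module.End.mul_apply,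
        hEfix _ _ (hpart hσ g).2]
    rw [map_sub, Pi.sub_apply, Pi.sub_apply, d₁_valSmul ψ hβ,
      d₁_apply (unitsRep r) (fun g => E (i g))]
    simp only
    rw [hg, hdiv (i g + i g'), ← hmod]
    simp only [hi]
    abel

end Fermat.CFT
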