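import Fermat.Agent.CFT.Galois.Levels
import Fermat.Agent.CFT.Coh.Dual
import Fermat.Prelude.Def_ExtCitation_KummerBridge

/-!
# Kummer theory of a subgroup of the absolute Galois group

For a homomorphism `r : G → Γ` the group `H¹(G, μ_p)` is the group of units fixed by `G` modulo
`p`-th powers.  The multiplicative group is written additively.
-/

set_option autoImplicit false

noncomputable section

open ExtCitation Fermat.CFT.Coh

namespace Fermat.CFT

local notation "ℚbar" => AlgebraicClosure ℚ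
local notation "Γℚ" => (AlgebraicClosure ℚ ≃ₐ[ℚ] AlgebraicClosure ℚ)

/-- The multiplicative group of `ℚ̄`, written additively. -/
abbrev QU : Type := Additive (AlgebraicClosure ℚ)ˣ

/-- The value of an element of `QU`. -/
def uval (x : QU) : ℚbar := ((Additive.toMul x : (ℚbar)ˣ) : ℚbar)

/-- The value of an element of `QU` is nonzero. -/
lemma uval_ne_zero (x : QU) : uval x ≠ 0 := Units.ne_zero _

/-- An element of `QU` is determined by its value. -/
lemma uval_injective : Function.Injective uval := fun _ _ h =>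
  Additive.toMul.injective (Units.ext h)

/-- The value of `0` is `1`. -/
@[simp] lemma uval_zero : uval 0 = 1 := rfl
/-- The value of a sum is the product of the values. -/
@[simp] lemma uval_add (x y : QU) : uval (x + y) = uval x * uval y := rfl

/-- The value of a multiple is a power. -/
@[simp] lemma uval_nsmul (n : ℕ) (x : QU) : uval (n • x) = uval x ^ n :=
  Units.val_pow_eq_pow_val _ n

/-- The value of a negative is the inverse. -/
lemma uval_neg (x : QU) : uval (-x) = (uval x)⁻¹ := Units.val_inv_eq_inv_val _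

/-- The value of a difference is the quotient. -/
lemma uval_sub (x y : QU) : uval (x - y) = uval x / uval y := by
  rw [sub_eq_add_neg, uval_add, uval_neg, div_eq_mul_inv]

/-- An element of `QU` from a nonzero algebraic number. -/
def ofVal (x : ℚbar) (hx : x ≠ 0) : QU := Additive.ofMul (Units.mk0 x hx)

/-- The value of `ofVal x`. -/
@[simp] lemma uval_ofVal (x : ℚbar) (hx : x ≠ 0) : uval (ofVal x hx) = x := rfl

variable {G G' : Type} [Group G] [Group G']

/-- The levels of `G` induced by finite Galois extensions. -/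
abbrev glev (r : G →* Γℚ) : Levels G := (galLevels Set.univ).comap r

/-- A homomorphism is compatible with the induced levels. -/
lemma isLevelsHom_glev (r : G →* Γℚ) (f : G' →* G) : IsLevelsHom (glev r) (glev (r.comp f)) f := by
  rintro _ ⟨N, hN, rfl⟩
  exact ⟨_, ⟨N, hN, rfl⟩, le_of_eq (Subgroup.comap_comap _ _ _).symm⟩

/-- The action on the multiplicative group. -/
def unitsRep (r : G →* Γℚ) : Representation ℤ G QU where
  toFun g := (MonoidHom.toAdditive (Units.map ((r g : ℚbar →ₐ[ℚ] ℚbar) : ℚbar →*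
    ℚbar))).toIntLinearMap
  map_one' := LinearMap.ext fun x => uval_injective (by
    change r 1 (uval x) = uval x
    rw [map_one]; rfl)
  map_mul' g h := LinearMap.ext fun x => uval_injective (by
    change r (g * h) (uval x) = r g (r h (uval x))
    rw [map_mul]; rfl)

/-- The action on a value. -/
@[simp] lemma uval_unitsRep (r : G →* Γℚ) (g : G) (x : QU) :
    uval (unitsRep r g x) = r g (uval x) := rfl

/-- The multiplicative group of `ℚ̄` is smooth. -/
lemma isSmooth_unitsRep (r : G →* Γℚ) : IsSmooth (glev r) (unitsRep r) := fun x => by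
  obtain ⟨N, hN, h⟩ := exists_level_fix (Set.finite_singleton (uval x))
  exact ⟨_, ⟨N, hN, rfl⟩, fun s hs => uval_injective (h _ hs _ rfl)⟩

/-! ### Hilbert 90 -/

/-- A level-constant multiplicative cocycle is a coboundary. -/
theorem hilbert90 (r : G →* Γℚ) {f : G → QU} (hf : f ∈ Z1 (glev r) (unitsRep r)) :
    ∃ z : QU, d₀ (unitsRep r) z = f := by
  classical
  obtain ⟨_, ⟨_, ⟨F, hFfd, -, -, rfl⟩, rfl⟩, hLC⟩ := hf.1
  obtain ⟨E₀, hE₀, -, hval⟩ := exists_normal_field ((hf.1.comp uval).finite_range)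
  set E₁ := IntermediateField.normalClosure ℚ (F ⊔ E₀ : IntermediateField ℚ ℚbar) ℚbar with hE₁
  have : Normal ℚ E₁ := normalClosure.normal ℚ _ ℚbar
  have hFE : F ⊔ E₀ ≤ E₁ := IntermediateField.le_normalClosure _
  have hdep : ∀ g h : G, (∀ x : E₁, r g x = r h x) → f g = f h := by
    intro g h hgh
    have hs : g⁻¹ * h ∈ F.fixingSubgroup.comap r := by
      rw [Subgroup.mem_comap, IntermediateField.mem_fixingSubgroup_iff]
      intro x hx
      rw [map_mul, map_inv, AlgEquiv.mul_apply, ← hgh ⟨x, hFE (le_sup_left (a := F) hx)⟩]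
      exact (r g).symm_apply_apply x
    have := hLC g _ hs
    rwa [mul_inv_cancel_left, eq_comm] at this
  -- the finite group of restrictions to `E₁`
  let res : G → (E₁ →ₐ[ℚ] ℚbar) → (E₁ →ₐ[ℚ] ℚbar) := fun g φ => (r g : ℚbar →ₐ[ℚ] ℚbar).comp φ
  have hres : ∀ g φ (y : E₁), res g φ y = r g (φ y) := fun _ _ _ => rfl
  set W : Set (E₁ →ₐ[ℚ] ℚbar) := Set.range fun g : G => res g E₁.val with hW
  have : Fintype W := Fintype.ofFinite _
  choose sec hsec using fun w : W => w.2
  have hsec' : ∀ (w : W) (x : E₁), r (sec w) x = w.1 x := fun w x => DFunLike.congr_fun (hsec w) x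
  -- linear independence
  have hli : LinearIndependent ℚbar (fun w : W => ((w.1 : E₁ →ₐ[ℚ] ℚbar) : E₁ → ℚbar)) :=
    (linearIndependent_monoidHom E₁ ℚbar).comp
      (fun w : W => ((w.1 : E₁ →ₐ[ℚ] ℚbar) : E₁ →* ℚbar))
      fun w w' h => Subtype.ext (AlgHom.ext fun x => DFunLike.congr_fun h x)
  obtain ⟨x, hx⟩ : ∃ x : E₁, ∑ w : W, uval (f (sec w)) * w.1 x ≠ 0 := by
    by_contra hno
    push Not at hno
    have := Fintype.linearIndependent_iff.mp hli (fun w => uval (f (sec w)))
      (funext fun x => by simpa using hno x)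
    exact uval_ne_zero _ (this ⟨_, 1, rfl⟩)
  refine ⟨-(ofVal _ hx), funext fun g => uval_injective ?_⟩
  have hmem : ∀ w : W, res g w.1 ∈ W := fun w =>
    ⟨g * sec w, AlgHom.ext fun y => by
      change r (g * sec w) y = r g (w.1 y)
      rw [map_mul, AlgEquiv.mul_apply, hsec']⟩
  let e : W → W := fun w => ⟨_, hmem w⟩
  have hev : ∀ w : W, ∀ y : E₁, (e w).1 y = r g (w.1 y) := fun w y => hres g w.1 y
  have he : Function.Bijective e := Finite.injective_iff_bijective.mp fun w w' h =>
    Subtype.ext (AlgHom.ext fun y => (r g).injective (by rw [← hev, ← hev, h]))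
  have key : r g (∑ w : W, uval (f (sec w)) * w.1 x) * uval (f g) =
      ∑ w : W, uval (f (sec w)) * w.1 x := by
    rw [map_sum, Finset.sum_mul]
    refine Fintype.sum_bijective e he _ _ fun w => ?_
    have h2 : f (sec (e w)) = f (g * sec w) := hdep _ _ fun y => by
      rw [hsec', map_mul, AlgEquiv.mul_apply, hsec', hev]
    rw [map_mul, h2, cocycle₁ hf, uval_add, uval_unitsRep, mul_right_comm, hev]
  have hne : r g (∑ w : W, uval (f (sec w)) * w.1 x) ≠ 0 := (map_ne_zero _).mpr hx
  rw [d₀_apply, uval_sub, uval_unitsRep, uval_neg, uval_ofVal, map_inv₀]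
  rw [div_eq_iff (inv_ne_zero hx), eq_mul_inv_iff_mul_eq₀ hx, inv_mul_eq_iff_eq_mul₀ hne]
  exact key.symm

/-! ### Roots of unity -/

variable (p : ℕ) [hp : Fact p.Prime]

/-- There is a primitive `p`-th root of unity in `ℚ̄`. -/
lemma exists_zetaU : ∃ z : QU, IsPrimitiveRoot (uval z) p :=
  haveI : NeZero (p : ℚbar) := ⟨Nat.cast_ne_zero.mpr hp.out.ne_zero⟩
  let ⟨z, hz⟩ := HasEnoughRootsOfUnity.exists_primitiveRoot ℚbar p
  ⟨ofVal z (hz.ne_zero hp.out.ne_zero), hz⟩

/-- The chosen primitive `p`-th root of unity. -/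
def zetaU : QU := (exists_zetaU p).choose

/-- The chosen root of unity is primitive. -/
lemma zetaU_spec : IsPrimitiveRoot (uval (zetaU p)) p := (exists_zetaU p).choose_spec

/-- The chosen root of unity is killed by `p`. -/
lemma nsmul_zetaU : p • zetaU p = 0 :=
  uval_injective (by rw [uval_nsmul, (zetaU_spec p).pow_eq_one, uval_zero])

/-- `a ↦ ζ^a`. -/
def zpw : ZMod p →+ QU :=
  ZMod.lift p ⟨zmultiplesHom QU (zetaU p), by simpa using nsmul_zetaU p⟩

variable {p}

/-- `zpw` on a natural number. -/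
lemma zpw_natCast (n : ℕ) : zpw p (n : ZMod p) = n • zetaU p := by
  rw [← Int.cast_natCast (R := ZMod p), zpw, ZMod.lift_coe]
  simp

/-- The value of `ζ^a`. -/
lemma uval_zpw (a : ZMod p) : uval (zpw p a) = uval (zetaU p) ^ a.val := by
  conv_lhs => rw [← ZMod.natCast_zmod_val a, zpw_natCast, uval_nsmul]

/-- `a ↦ ζ^a` is injective. -/
lemma zpw_injective : Function.Injective (zpw p) := by
  refine (injective_iff_map_eq_zero _).mpr fun a ha => ?_
  have h := congrArg uval ha
  rw [uval_zpw, uval_zero] at h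
  exact (ZMod.val_eq_zero a).mp
    (Nat.eq_zero_of_dvd_of_lt ((zetaU_spec p).pow_eq_one_iff_dvd _ |>.mp h) (ZMod.val_lt a))

/-- Every `ζ^a` is killed by `p`. -/
lemma nsmul_zpw (a : ZMod p) : p • zpw p a = 0 := by
  rw [← map_nsmul, nsmul_eq_mul, ZMod.natCast_self, zero_mul, map_zero]

/-- Every element killed by `p` is a power of `ζ`. -/
lemma exists_zpw_eq {x : QU} (hx : p • x = 0) : ∃ a, zpw p a = x := by
  have h := congrArg uval hx
  rw [uval_nsmul, uval_zero] at h
  obtain ⟨i, -, hi⟩ := (zetaU_spec p).eq_pow_of_pow_eq_one h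
  exact ⟨i, uval_injective (by rw [zpw_natCast, uval_nsmul, hi])⟩

variable (p) in
/-- The exponent of a `p`-th root of unity. -/
def zlog (x : QU) : ZMod p := Function.invFun (zpw p) x

/-- The exponent gives back the root of unity. -/
lemma zpw_zlog {x : QU} (hx : p • x = 0) : zpw p (zlog p x) = x :=
  Function.invFun_eq (exists_zpw_eq hx)

variable (p) in
/-- The cyclotomic character on `G`. -/
abbrev cycHom (r : G →* Γℚ) : G →* (ZMod p)ˣ := (cycloChar p).comp r

variable {r : G →* Γℚ}

/-- `a ↦ ζ^a` is equivariant for the cyclotomic character. -/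
lemma unitsRep_zpw (g : G) (a : ZMod p) :
    unitsRep r g (zpw p a) = zpw p (charRep (cycHom p r) g a) := by
  have hc : (charRep (cycHom p r) g a) = ((cycloChar p (r g) : ZMod p)) * a := by simp
  have : NeZero p := ⟨hp.out.ne_zero⟩
  set t : ZMod p := (cycloChar p (r g) : ZMod p)
  have hz : r g (uval (zetaU p)) = uval (zetaU p) ^ t.val :=
    modularCyclotomicCharacter.spec ℚbar (card_rootsOfUnity_eq_self p) (r g : ℚbar ≃+* ℚbar)
      (t := Additive.toMul (zetaU p))
      ((mem_rootsOfUnity p _).mpr (Units.ext (by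
        rw [Units.val_pow_eq_pow_val]; exact (zetaU_spec p).pow_eq_one)))
  have e1 : unitsRep r g (zetaU p) = t.val • zetaU p :=
    uval_injective (by rw [uval_unitsRep, hz, uval_nsmul])
  rw [hc, ← ZMod.natCast_zmod_val a, zpw_natCast, map_nsmul, e1, ← mul_smul,
    ← ZMod.natCast_zmod_val t, ← Nat.cast_mul, zpw_natCast, ZMod.val_natCast, mul_comm,
    Nat.mod_eq_of_lt (ZMod.val_lt t)]

/-- `a ↦ ζ^a` commutes with `d₀`. -/
lemma zpw_d₀ (a : ZMod p) (g : G) :
    zpw p (d₀ (charRep (cycHom p r)) a g) = d₀ (unitsRep r) (zpw p a) g := by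
  rw [d₀_apply, d₀_apply, map_sub, unitsRep_zpw]

/-- `a ↦ ζ^a` commutes with `d₁`. -/
lemma zpw_d₁ (x : G → ZMod p) (g h : G) :
    zpw p (d₁ (charRep (cycHom p r)) x g h) = d₁ (unitsRep r) (fun a => zpw p (x a)) g h := by
  rw [d₁_apply, d₁_apply, map_add, map_sub, unitsRep_zpw]

/-- `a ↦ ζ^a` commutes with `d₂`. -/
lemma zpw_d₂ (x : G → G → ZMod p) (g h j : G) :
    zpw p (d₂ (charRep (cycHom p r)) x g h j) =
      d₂ (unitsRep r) (fun a b => zpw p (x a b)) g h j := by
  rw [d₂_apply, d₂_apply, map_sub, map_add, map_sub, unitsRep_zpw]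

/-- The cyclotomic character is trivial on a level. -/
lemma charSmooth_cycHom (r : G →* Γℚ) : CharSmooth (glev r) (cycHom p r) := by
  obtain ⟨_, ⟨N, hN, rfl⟩, h⟩ := isSmooth_unitsRep r (zpw p 1)
  refine ⟨_, ⟨N, hN, rfl⟩, fun s hs => Units.ext ?_⟩
  have := h s hs
  rw [unitsRep_zpw] at this
  simpa using zpw_injective this

/-- A `μ_p`-valued cocycle which bounds multiplicatively bounds. -/
theorem exists_d₁_of_units {z : G → G → ZMod p} {w : G → QU} (hw : (glev r).IsLC₁ w)
    (h : ∀ g g', d₁ (unitsRep r) w g g' = zpw p (z g g')) :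
    ∃ e : G → ZMod p, (glev r).IsLC₁ e ∧ d₁ (charRep (cycHom p r)) e = z := by
  have hf : (p • w) ∈ Z1 (glev r) (unitsRep r) := ⟨hw.comp (p • ·), funext₂ fun g g' => by
    rw [map_nsmul, Pi.smul_apply, Pi.smul_apply, h, nsmul_zpw]; rfl⟩
  obtain ⟨η, hη⟩ := hilbert90 r hf
  obtain ⟨ν, hν⟩ := IsAlgClosed.exists_pow_nat_eq (uval η) hp.out.pos
  have hν0 : ν ≠ 0 := fun h0 => uval_ne_zero η (by rw [← hν, h0, zero_pow hp.out.ne_zero])
  set v : QU := ofVal ν hν0
  have hv : p • v = η := uval_injective (by rw [uval_nsmul, uval_ofVal, hν])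
  have hLC : (glev r).IsLC₁ (w - d₀ (unitsRep r) v) :=
    hw.map₂ (isLC₁_d₀ (isSmooth_unitsRep r) v) (· - ·)
  have hp' : ∀ g, p • (w - d₀ (unitsRep r) v) g = 0 := fun g => by
    have := congrFun hη g
    rw [Pi.smul_apply, ← hv, map_nsmul, Pi.smul_apply] at this
    rw [Pi.sub_apply, nsmul_sub, ← this, sub_self]
  refine ⟨fun g => zlog p ((w - d₀ (unitsRep r) v) g), hLC.comp _, funext₂ fun g g' => ?_⟩
  refine zpw_injective ?_
  rw [zpw_d₁]
  simp only [zpw_zlog (hp' _)]
  rw [map_sub (d₁ (unitsRep r)), d₁_d₀, sub_zero, h]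

/-! ### The Kummer map -/

/-- An element whose `p`-th power is fixed. -/
def IsRoot (p : ℕ) (r : G →* Γℚ) (α : QU) : Prop := ∀ g, p • d₀ (unitsRep r) α g = 0

omit hp in
/-- A root of a fixed unit has fixed `p`-th power. -/
lemma isRoot_of_eq {α : QU} (a : H0 (unitsRep r)) (h : p • α = a.1) : IsRoot p r α := fun g => by
  rw [d₀_apply, nsmul_sub, ← map_nsmul, h, H0_fixed, sub_self]

/-- The cocycle of a root. -/
def rootCocycle {α : QU} (hα : IsRoot p r α) :
    Z1 (glev r) (charRep (cycHom p r)) :=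
  ⟨fun g => zlog p (d₀ (unitsRep r) α g),
    (isLC₁_d₀ (isSmooth_unitsRep r) α).comp _,
    funext₂ fun g h => zpw_injective (by
      rw [zpw_d₁]
      simp only [zpw_zlog (hα _)]
      rw [d₁_d₀]; simp)⟩

/-- The cocycle of a root, read in the units. -/
lemma zpw_rootCocycle {α : QU} (hα : IsRoot p r α) (g : G) :
    zpw p ((rootCocycle hα).1 g) = d₀ (unitsRep r) α g :=
  zpw_zlog (hα g)

variable (p) in
/-- Every element of `QU` has a `p`-th root. -/
lemma exists_root (a : QU) : ∃ α : QU, p • α = a := by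
  obtain ⟨ν, hν⟩ := IsAlgClosed.exists_pow_nat_eq (uval a) hp.out.pos
  have hν0 : ν ≠ 0 := fun h0 => uval_ne_zero a (by rw [← hν, h0, zero_pow hp.out.ne_zero])
  exact ⟨ofVal ν hν0, uval_injective (by rw [uval_nsmul, uval_ofVal, hν])⟩

/-- Roots of the same element give the same class. -/
lemma cl₁_rootCocycle_eq {α β : QU} (hα : IsRoot p r α) (hβ : IsRoot p r β)
    (h : p • α = p • β) :
    cl₁ (glev r) (charRep (cycHom p r)) (rootCocycle hα) = cl₁ (glev r) (charRep (cycHom p r))
      (rootCocycle hβ) := by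
  obtain ⟨c, hc⟩ := exists_zpw_eq (p := p) (x := α - β) (by rw [nsmul_sub, h, sub_self])
  refine cl₁_eq_iff.mpr ⟨c, funext fun g => zpw_injective ?_⟩
  rw [zpw_d₀, hc, Pi.sub_apply, map_sub (zpw p), zpw_rootCocycle, zpw_rootCocycle, map_sub,
    Pi.sub_apply]

variable (p r) in
/-- The Kummer map. -/
def kum : H0 (unitsRep r) →+ H1 (glev r) (charRep (cycHom p r)) where
  toFun a := cl₁ (glev r) (charRep (cycHom p r))
    (rootCocycle (isRoot_of_eq a (exists_root p a.1).choose_spec))
  map_zero' := by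
    rw [cl₁_rootCocycle_eq _ (isRoot_of_eq (p := p) (α := 0) 0 (smul_zero _))
      (by rw [(exists_root p _).choose_spec, smul_zero]; rfl)]
    exact cl₁_eq_zero.mpr ⟨0, funext fun g => zpw_injective (by simp [zpw_rootCocycle])⟩
  map_add' a b := by
    set α := (exists_root p a.1).choose
    set β := (exists_root p b.1).choose
    have hα : p • α = a.1 := (exists_root p a.1).choose_spec
    have hβ : p • β = b.1 := (exists_root p b.1).choose_spec
    have hab : p • (α + β) = (a + b).1 := by rw [nsmul_add, hα, hβ]; rfl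
    rw [cl₁_rootCocycle_eq _ (isRoot_of_eq (a + b) hab)
      (by rw [(exists_root p _).choose_spec, hab]), ← map_add]
    refine congrArg _ (Subtype.ext (funext fun g => zpw_injective ?_))
    change zpw p ((rootCocycle _).1 g) = zpw p ((rootCocycle _).1 g + (rootCocycle _).1 g)
    rw [map_add, zpw_rootCocycle, zpw_rootCocycle, zpw_rootCocycle, map_add, Pi.add_apply]

/-- The Kummer map from any root. -/
lemma kum_root (a : H0 (unitsRep r)) {α : QU} (h : p • α = a.1) :
    kum p r a = cl₁ (glev r) (charRep (cycHom p r)) (rootCocycle (isRoot_of_eq a h)) :=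
  cl₁_rootCocycle_eq _ _ (by rw [(exists_root p _).choose_spec, h])

/-- **Kummer theory**: every class in `H¹(μ_p)` is a Kummer class. -/
theorem kum_surjective : Function.Surjective (kum p r) := by
  intro c
  obtain ⟨z, rfl⟩ := cl₁_surjective c
  obtain ⟨α, hα⟩ := hilbert90 r (f := fun g => zpw p (z.1 g)) ⟨z.2.1.comp _, funext₂ fun g h => by
    rw [← zpw_d₁, z.2.2]; simp⟩
  have hfix : p • α ∈ LinearMap.ker (d₀ (unitsRep r)) := by
    rw [LinearMap.mem_ker, map_nsmul, hα]
    exact funext fun g => nsmul_zpw _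
  refine ⟨⟨p • α, hfix⟩, ?_⟩
  rw [kum_root (α := α) ⟨p • α, hfix⟩ rfl]
  refine congrArg _ (Subtype.ext (funext fun g => zpw_injective ?_))
  rw [zpw_rootCocycle, hα]

/-- The Kummer class vanishes exactly for `p`-th powers of fixed units. -/
theorem kum_eq_zero_iff {a : H0 (unitsRep r)} : kum p r a = 0 ↔ ∃ y, p • y = a := by
  constructor
  · intro h
    obtain ⟨α, hα⟩ := exists_root p a.1
    rw [kum_root a hα] at h
    obtain ⟨c, hc⟩ := cl₁_eq_zero.mp h
    have hy : α - zpw p c ∈ LinearMap.ker (d₀ (unitsRep r)) := by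
      rw [LinearMap.mem_ker, map_sub, sub_eq_zero]
      funext g
      rw [← zpw_d₀, hc, zpw_rootCocycle]
    exact ⟨⟨α - zpw p c, hy⟩, Subtype.ext (by
      change p • (α - zpw p c) = a.1
      rw [nsmul_sub, hα, nsmul_zpw, sub_zero])⟩
  · rintro ⟨y, rfl⟩
    rw [map_nsmul, ← Nat.cast_smul_eq_nsmul (ZMod p), ZMod.natCast_self, zero_smul]

/-! ### Naturality -/

/-- Restriction of fixed units. -/
def resUnits (r : G →* Γℚ) (f : G' →* G) : H0 (unitsRep r) →+ H0 (unitsRep (r.comp f)) where
  toFun a := ⟨a.1, mem_ker_d₀.mpr fun g => H0_fixed a (f g)⟩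
  map_zero' := rfl
  map_add' _ _ := rfl

/-- The identity of `μ_p` is equivariant along a homomorphism. -/
lemma cycHom_equivariant (r : G →* Γℚ) (f : G' →* G) :
    IsEquivariant (charRep (cycHom p r)) (charRep (cycHom p (r.comp f))) f
      (LinearMap.id : ZMod p →ₗ[ZMod p] ZMod p) := fun _ _ => rfl

/-- The Kummer map commutes with restriction. -/
lemma map₁_kum (f : G' →* G) (a : H0 (unitsRep r)) :
    map₁ (isLevelsHom_glev r f) (cycHom_equivariant r f) (kum p r a) =
      kum p (r.comp f) (resUnits r f a) := by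
  obtain ⟨α, hα⟩ := exists_root p a.1
  have hα' : p • α = (resUnits r f a).1 := hα
  rw [kum_root a hα, kum_root (resUnits r f a) hα', map₁_cl₁]
  congr 1

end Fermat.CFT
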